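import Mathlib
import Fermat.Prelude.Def_ModularCurve_X0ModL
import Fermat.Agent.MUL.S28.OrderLemma
import Fermat.Agent.MUL.S28.Eval
import Fermat.Agent.MUL.S28.ThmA
import Fermat.Agent.MUL.S28.DescentMain
import Fermat.Agent.MUL.S28.DescentD3
import Fermat.Agent.MUL.S24.Hol

section MergeWrap_Lib_IgusaDeg_Biv -- from Lib/IgusaDeg/Biv.lean

set_option autoImplicit false

namespace Fermat.Agent.IgusaDeg

open Polynomial ModularCurve Fermat.Agent.S28

noncomputable section

variable {k : Type*} [Field k]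

/-- Every element of `k(j)` is a quotient of polynomials in `j`. -/
theorem exists_evJ_of_mem_adjoin (j : LaurentSeries k) {c : LaurentSeries k}
    (hc : c ∈ IntermediateField.adjoin k ({j} : Set (LaurentSeries k))) :
    ∃ a b : k[X], evJ j b ≠ 0 ∧ c * evJ j b = evJ j a := by
  rw [IntermediateField.mem_adjoin_simple_iff] at hc
  obtain ⟨r, s, rfl⟩ := hc
  by_cases hs : aeval j s = 0
  · refine ⟨0, 1, ?_, ?_⟩
    · rw [map_one]; exact one_ne_zero
    · rw [hs, div_zero, zero_mul, map_zero]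
  · refine ⟨r, s, hs, ?_⟩
    show aeval j r / aeval j s * aeval j s = aeval j r
    rw [div_mul_cancel₀ _ hs]

/-- The canonical map `k[Y] → k(j)`. -/
def toKj (j : LaurentSeries k) :
    k[X] →+* ↥(IntermediateField.adjoin k ({j} : Set (LaurentSeries k))) :=
  ((aeval (⟨j, IntermediateField.mem_adjoin_simple_self k j⟩ :
    ↥(IntermediateField.adjoin k ({j} : Set (LaurentSeries k)))) :
      k[X] →ₐ[k] ↥(IntermediateField.adjoin k ({j} : Set (LaurentSeries k)))) : k[X] →+* _)

theorem coe_toKj (j : LaurentSeries k) (p : k[X]) :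
    ((toKj j p : ↥(IntermediateField.adjoin k ({j} : Set (LaurentSeries k)))) :
      LaurentSeries k) = evJ j p := by
  have h := aeval_algebraMap_apply (LaurentSeries k)
    (⟨j, IntermediateField.mem_adjoin_simple_self k j⟩ :
      ↥(IntermediateField.adjoin k ({j} : Set (LaurentSeries k)))) p
  exact h.symm

theorem algebraMap_comp_toKj (j : LaurentSeries k) :
    (algebraMap ↥(IntermediateField.adjoin k ({j} : Set (LaurentSeries k)))
      (LaurentSeries k)).comp (toKj j) = evJ j :=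
  RingHom.ext fun p => coe_toKj j p

theorem toKj_injective (j : LaurentSeries k) (hj : ordV k j = ((-1 : ℤ) : WithTop ℤ)) :
    Function.Injective (toKj j) := by
  intro p q h
  apply evJ_injective j hj
  rw [← coe_toKj, ← coe_toKj, h]

/-- A nonzero bivariate relation gives algebraicity over `k(j)`. -/
theorem isAlgebraic_of_biv (j : LaurentSeries k) (hj : ordV k j = ((-1 : ℤ) : WithTop ℤ))
    {x : LaurentSeries k} (P : k[X][X]) (hP : P ≠ 0) (hPx : P.eval₂ (evJ j) x = 0) :
    IsAlgebraic ↥(IntermediateField.adjoin k ({j} : Set (LaurentSeries k))) x := by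
  refine ⟨P.map (toKj j), ?_, ?_⟩
  · rwa [Ne, Polynomial.map_eq_zero_iff (toKj_injective j hj)]
  · rw [aeval_def, eval₂_map, algebraMap_comp_toKj]
    exact hPx

/-- A monic bivariate relation gives integrality over `k(j)`. -/
theorem isIntegral_of_biv (j : LaurentSeries k)
    {x : LaurentSeries k} (P : k[X][X]) (hP : P.Monic) (hPx : P.eval₂ (evJ j) x = 0) :
    IsIntegral ↥(IntermediateField.adjoin k ({j} : Set (LaurentSeries k))) x := by
  refine ⟨P.map (toKj j), hP.map _, ?_⟩
  rw [eval₂_map, algebraMap_comp_toKj]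
  exact hPx

/-- Clearing denominators: for `m ∈ k(j)[X]` there are `b ∈ k[Y]`, `b ≠ 0`, and `P ∈ k[Y][X]` of
`X`-degree `≤ deg m` with `P(j, x) = b(j) · m(x)` for all `x`; and `P ≠ 0` if `m ≠ 0`. -/
theorem exists_biv_of_poly (j : LaurentSeries k)
    (m : (↥(IntermediateField.adjoin k ({j} : Set (LaurentSeries k))))[X]) :
    ∃ (b : k[X]) (P : k[X][X]), b ≠ 0 ∧ P.natDegree ≤ m.natDegree ∧ (m ≠ 0 → P ≠ 0) ∧
      ∀ x : LaurentSeries k, P.eval₂ (evJ j) x = evJ j b * aeval x m := by
  classical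
  have h : ∀ i : ℕ, ∃ a b : k[X], evJ j b ≠ 0 ∧
      ((m.coeff i : ↥(IntermediateField.adjoin k ({j} : Set (LaurentSeries k)))) :
        LaurentSeries k) * evJ j b = evJ j a :=
    fun i => exists_evJ_of_mem_adjoin j (m.coeff i).2
  choose r s hs hrs using h
  set I := Finset.range (m.natDegree + 1) with hI
  have hs0 : ∀ i, s i ≠ 0 := fun i h0 => hs i (by rw [h0, map_zero])
  refine ⟨∏ i ∈ I, s i, ∑ i ∈ I, C (r i * ∏ i' ∈ I.erase i, s i') * X ^ i, ?_, ?_, ?_, ?_⟩
  · exact Finset.prod_ne_zero_iff.mpr fun i _ => hs0 i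
  · refine natDegree_sum_le_of_forall_le _ _ fun i hi => ?_
    refine (natDegree_C_mul_X_pow_le _ _).trans ?_
    rw [hI, Finset.mem_range] at hi
    omega
  · intro hm
    have hd : m.natDegree ∈ I := by rw [hI, Finset.mem_range]; omega
    have hcoeff : (∑ i ∈ I, C (r i * ∏ i' ∈ I.erase i, s i') * X ^ i : k[X][X]).coeff m.natDegree
        = r m.natDegree * ∏ i' ∈ I.erase m.natDegree, s i' := by
      rw [finsetSum_coeff, Finset.sum_eq_single m.natDegree]
      · rw [coeff_C_mul, coeff_X_pow, if_pos rfl, mul_one]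
      · intro i _ hne
        rw [coeff_C_mul, coeff_X_pow, if_neg (Ne.symm hne), mul_zero]
      · intro h; exact absurd hd h
    intro h0
    have h1 := congrArg (fun Q : k[X][X] => Q.coeff m.natDegree) h0
    simp only [coeff_zero] at h1
    rw [hcoeff] at h1
    rcases mul_eq_zero.mp h1 with h2 | h2
    · have h3 := hrs m.natDegree
      rw [h2, map_zero] at h3
      rcases mul_eq_zero.mp h3 with h4 | h4
      · have h5 : m.coeff m.natDegree = 0 := by
          apply Subtype.ext
          exact h4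
        exact hm (leadingCoeff_eq_zero.mp h5)
      · exact hs _ h4
    · exact (Finset.prod_ne_zero_iff.mpr fun i _ => hs0 i) h2
  · intro x
    rw [eval₂_finsetSum, aeval_eq_sum_range, Finset.mul_sum]
    refine Finset.sum_congr rfl fun i hi => ?_
    rw [eval₂_mul, eval₂_C, eval₂_pow, eval₂_X, map_mul, ← hrs i,
      ← Finset.mul_prod_erase I s hi, map_mul, Algebra.smul_def,
      IntermediateField.algebraMap_apply]
    ring

/-- Algebraicity over `k(j)` gives a nonzero bivariate relation of `X`-degree at most the degree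
of the minimal polynomial. -/
theorem exists_biv_of_isAlgebraic (j : LaurentSeries k)
    {x : LaurentSeries k}
    (hx : IsAlgebraic ↥(IntermediateField.adjoin k ({j} : Set (LaurentSeries k))) x) :
    ∃ P : k[X][X], P ≠ 0 ∧
      P.natDegree ≤ (minpoly ↥(IntermediateField.adjoin k ({j} : Set (LaurentSeries k))) x).natDegree ∧
      P.eval₂ (evJ j) x = 0 := by
  obtain ⟨b, P, -, hdeg, hne, hev⟩ := exists_biv_of_poly j
    (minpoly ↥(IntermediateField.adjoin k ({j} : Set (LaurentSeries k))) x)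
  refine ⟨P, hne (minpoly.ne_zero hx.isIntegral), hdeg, ?_⟩
  rw [hev x, minpoly.aeval, mul_zero]

end

end Fermat.Agent.IgusaDeg
end MergeWrap_Lib_IgusaDeg_Biv

section MergeWrap_Lib_IgusaDeg_AlgJd -- from Lib/IgusaDeg/AlgJd.lean

set_option autoImplicit false

namespace Fermat.Agent.IgusaDeg

open Polynomial ModularCurve Fermat.Agent.S28

noncomputable section

/-! ### Clearing denominators `ℚ → ℤ` -/

theorem exists_int_scale1 (c : ℚ[X]) :
    ∃ (D : ℤ) (cZ : ℤ[X]), D ≠ 0 ∧ cZ.map (Int.castRingHom ℚ) = C (D : ℚ) * c := by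
  induction c using Polynomial.induction_on' with
  | add p q hp hq =>
    obtain ⟨D₁, p₁, hD₁, h₁⟩ := hp
    obtain ⟨D₂, p₂, hD₂, h₂⟩ := hq
    refine ⟨D₁ * D₂, C D₂ * p₁ + C D₁ * p₂, mul_ne_zero hD₁ hD₂, ?_⟩
    rw [Polynomial.map_add, Polynomial.map_mul, Polynomial.map_mul, h₁, h₂, map_C, map_C]
    simp only [eq_intCast, Int.cast_mul, map_mul]
    ring
  | monomial n r =>
    refine ⟨r.den, monomial n r.num, by exact_mod_cast r.den_nz, ?_⟩
    rw [map_monomial, C_mul_monomial]
    congr 1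
    simp only [eq_intCast, Int.cast_natCast]
    exact (Rat.den_mul_eq_num r).symm

theorem exists_int_scale2 (P : ℚ[X][X]) :
    ∃ (D : ℤ) (PZ : ℤ[X][X]), D ≠ 0 ∧
      PZ.map (mapRingHom (Int.castRingHom ℚ)) = C (C (D : ℚ)) * P := by
  induction P using Polynomial.induction_on' with
  | add p q hp hq =>
    obtain ⟨D₁, p₁, hD₁, h₁⟩ := hp
    obtain ⟨D₂, p₂, hD₂, h₂⟩ := hq
    refine ⟨D₁ * D₂, C (C D₂) * p₁ + C (C D₁) * p₂, mul_ne_zero hD₁ hD₂, ?_⟩
    rw [Polynomial.map_add, Polynomial.map_mul, Polynomial.map_mul, h₁, h₂, map_C, map_C,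
      coe_mapRingHom, map_C, map_C, eq_intCast, eq_intCast, Int.cast_mul, C_mul, C_mul]
    ring
  | monomial n c =>
    obtain ⟨D, cZ, hD, hc⟩ := exists_int_scale1 c
    refine ⟨D, monomial n cZ, hD, ?_⟩
    rw [map_monomial, C_mul_monomial, coe_mapRingHom, hc]

/-! ### Integral relations -/

theorem intCast_injective_laurent {R : Type*} [CommRing R] [CharZero R] :
    Function.Injective (coeffMap (Int.castRingHom R)) :=
  coeffMap_injective (RingHom.injective_int (Int.castRingHom R))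

/-- From a rational relation to an integral one. -/
theorem exists_int_relation (j x : LaurentSeries ℤ) (P : ℚ[X][X]) (hP : P ≠ 0)
    (hPx : pev2 (coeffMap (Int.castRingHom ℚ) j) (coeffMap (Int.castRingHom ℚ) x) P = 0) :
    ∃ Q : ℤ[X][X], Q ≠ 0 ∧ Q.natDegree ≤ P.natDegree ∧ pev2 j x Q = 0 := by
  obtain ⟨D, Q, hD, hQ⟩ := exists_int_scale2 P
  have hD' : (C (C (D : ℚ)) : ℚ[X][X]) ≠ 0 := by
    rw [Ne, C_eq_zero, C_eq_zero]
    exact_mod_cast hD
  refine ⟨Q, ?_, ?_, ?_⟩
  · rintro rfl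
    rw [Polynomial.map_zero] at hQ
    exact mul_ne_zero hD' hP hQ.symm
  · have h1 : (Q.map (mapRingHom (Int.castRingHom ℚ))).natDegree = Q.natDegree :=
      natDegree_map_eq_of_injective
        (Polynomial.map_injective _ (RingHom.injective_int (Int.castRingHom ℚ))) Q
    rw [← h1, hQ, natDegree_C_mul (by rwa [Ne, C_eq_zero] at hD')]
  · apply intCast_injective_laurent (R := ℚ)
    rw [coeffMap_pev2, hQ, map_mul, hPx, mul_zero, map_zero]

/-- If all coefficients are divisible by `p`, the polynomial is divisible by `p`. -/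
theorem exists_eq_C_mul_of_forall_dvd (p : ℤ) (Q : ℤ[X][X])
    (h : ∀ a b, p ∣ (Q.coeff a).coeff b) : ∃ Q₁ : ℤ[X][X], Q = C (C p) * Q₁ := by
  have h1 : C (C p) ∣ Q := by
    rw [C_dvd_iff_dvd_coeff]
    intro a
    rw [C_dvd_iff_dvd_coeff]
    exact h a
  exact h1

theorem hahnC_intCast_ne_zero {p : ℤ} (hp : p ≠ 0) :
    (HahnSeries.C p : LaurentSeries ℤ) ≠ 0 := by
  intro h
  rw [HahnSeries.C_apply] at h
  have := congrArg (fun z : LaurentSeries ℤ => z.coeff 0) h
  simp only [HahnSeries.coeff_single_same, HahnSeries.coeff_zero] at this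
  exact hp this

/-- A relation can be made primitive at `p`. -/
theorem exists_prim_relation (p : ℕ) (hp : p.Prime) (j x : LaurentSeries ℤ) :
    ∀ (m : ℕ) (Q : ℤ[X][X]) (a b : ℕ), ((Q.coeff a).coeff b).natAbs = m → m ≠ 0 →
      pev2 j x Q = 0 →
      ∃ Q' : ℤ[X][X], pev2 j x Q' = 0 ∧ Q'.natDegree ≤ Q.natDegree ∧
        ∃ a b, ¬ (p : ℤ) ∣ (Q'.coeff a).coeff b := by
  intro m
  induction m using Nat.strong_induction_on with
  | _ m ih =>
    intro Q a b hm hm0 hQ
    by_cases h : ∀ a b, (p : ℤ) ∣ (Q.coeff a).coeff b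
    · obtain ⟨Q₁, rfl⟩ := exists_eq_C_mul_of_forall_dvd p Q h
      have hp0 : (p : ℤ) ≠ 0 := by exact_mod_cast hp.ne_zero
      have hQ₁ : pev2 j x Q₁ = 0 := by
        rw [map_mul, pev2_C, pev1_C] at hQ
        exact (mul_eq_zero.mp hQ).resolve_left (hahnC_intCast_ne_zero hp0)
      have hcoeff : ((C (C (p : ℤ)) * Q₁).coeff a).coeff b = p * (Q₁.coeff a).coeff b := by
        rw [coeff_C_mul, coeff_C_mul]
      rw [hcoeff, Int.natAbs_mul, Int.natAbs_natCast] at hm
      have hne : ((Q₁.coeff a).coeff b).natAbs ≠ 0 := by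
        intro h0
        rw [h0, mul_zero] at hm
        exact hm0 hm.symm
      have hlt : ((Q₁.coeff a).coeff b).natAbs < m := by
        rw [← hm]
        have := hp.two_le
        nlinarith [Nat.pos_of_ne_zero hne]
      obtain ⟨Q', h1, h2, h3⟩ := ih _ hlt Q₁ a b rfl hne hQ₁
      refine ⟨Q', h1, h2.trans ?_, h3⟩
      rw [natDegree_C_mul (by rwa [Ne, C_eq_zero])]
    · push Not at h
      exact ⟨Q, hQ, le_rfl, h⟩

/-- A nonzero integral relation reduces to a nonzero relation over every field. -/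
theorem exists_field_relation (k : Type*) [Field k] (j x : LaurentSeries ℤ) (Q : ℤ[X][X])
    (hQ0 : Q ≠ 0) (hQ : pev2 j x Q = 0) :
    ∃ P : k[X][X], P ≠ 0 ∧ P.natDegree ≤ Q.natDegree ∧
      pev2 (coeffMap (Int.castRingHom k) j) (coeffMap (Int.castRingHom k) x) P = 0 := by
  obtain ⟨p, hchar⟩ := CharP.exists k
  rcases CharP.char_is_prime_or_zero k p with hp | hp0
  · -- positive characteristic
    have hex : ∃ a b, (Q.coeff a).coeff b ≠ 0 := by
      by_contra hcon
      push Not at hcon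
      exact hQ0 (by ext a b; simpa using hcon a b)
    obtain ⟨a, b, hab⟩ := hex
    obtain ⟨Q', h1, h2, a', b', h3⟩ := exists_prim_relation p hp j x _ Q a b rfl
      (Int.natAbs_ne_zero.mpr hab) hQ
    refine ⟨Q'.map (mapRingHom (Int.castRingHom k)), ?_, (natDegree_map_le).trans h2, ?_⟩
    · intro h0
      have h4 := congrArg (fun R : k[X][X] => (R.coeff a').coeff b') h0
      simp only [coeff_map, coe_mapRingHom, coeff_zero, eq_intCast] at h4
      exact h3 ((CharP.intCast_eq_zero_iff k p _).mp h4)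
    · rw [← coeffMap_pev2, h1, map_zero]
  · -- characteristic zero
    subst hp0
    have : CharZero k := CharP.charP_to_charZero k
    have hinj : Function.Injective (Int.castRingHom k) := RingHom.injective_int _
    refine ⟨Q.map (mapRingHom (Int.castRingHom k)), ?_, natDegree_map_le, ?_⟩
    · rwa [Ne, Polynomial.map_eq_zero_iff (Polynomial.map_injective _ hinj)]
    · rw [← coeffMap_pev2, hQ, map_zero]

/-! ### The relation over `ℚ` (from S28) -/

theorem ordV_jqModC (k : Type*) [Field k] :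
    ordV k (jqModC k) = ((-1 : ℤ) : WithTop ℤ) :=
  ordV_muSeries (-1) constantCoeff_jNum

/-- Elements of `k(j, u)` are algebraic over `k(j)` when `u` is integral over `k[j]`. -/
theorem isAlgebraic_of_mem_adjoin_pair {k : Type*} [Field k] (j u : LaurentSeries k)
    (χ : k[X][X]) (hχm : χ.Monic) (hχu : χ.eval₂ (evJ j) u = 0) {x : LaurentSeries k}
    (hx : x ∈ IntermediateField.adjoin k ({j, u} : Set (LaurentSeries k))) :
    IsAlgebraic ↥(IntermediateField.adjoin k ({j} : Set (LaurentSeries k))) x := by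
  have huint : IsIntegral ↥(IntermediateField.adjoin k ({j} : Set (LaurentSeries k))) u :=
    isIntegral_of_biv j χ hχm hχu
  have hmem2 : x ∈
      IntermediateField.adjoin ↥(IntermediateField.adjoin k ({j} : Set (LaurentSeries k)))
        ({u} : Set (LaurentSeries k)) := by
    rw [← IntermediateField.mem_restrictScalars (K := k), IntermediateField.adjoin_adjoin_left,
      Set.singleton_union]
    exact hx
  have := IntermediateField.isAlgebraic_adjoin_simple huint
  have h1 := Algebra.IsAlgebraic.isAlgebraic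
    (R := ↥(IntermediateField.adjoin k ({j} : Set (LaurentSeries k))))
    (⟨x, hmem2⟩ :
      ↥(IntermediateField.adjoin ↥(IntermediateField.adjoin k ({j} : Set (LaurentSeries k)))
        ({u} : Set (LaurentSeries k))))
  exact IntermediateField.isAlgebraic_iff.mp h1

theorem exists_rat_relation (d : ℕ) [NeZero d] :
    ∃ P : ℚ[X][X], P ≠ 0 ∧ P.eval₂ (evJ (jqModC ℚ)) (qExpand ℚ d (jqModC ℚ)) = 0 := by
  obtain ⟨p, hpd, hp⟩ := Nat.exists_infinite_primes (d + 1)
  have : Fact p.Prime := ⟨hp⟩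
  have hpd' : ¬ p ∣ d :=
    Nat.not_dvd_of_pos_of_lt (Nat.pos_of_ne_zero (NeZero.ne d)) (by omega)
  obtain ⟨n, φ, u, χQ, hφ, hu, hχm, hχd, hχc, -, hχu, hA⟩ := descent_main d p hpd' (thmA d)
  have hle := modularFunctionFieldFull_le_adjoin' d hφ u hu χQ hχm hχd hχc hχu hA
  have hmem : qExpand ℚ d (jqModC ℚ) ∈
      IntermediateField.adjoin ℚ ({jqModC ℚ, u} : Set (LaurentSeries ℚ)) :=
    hle (jqModCd_mem_full ℚ d dvd_rfl)
  have halg := isAlgebraic_of_mem_adjoin_pair (jqModC ℚ) u χQ hχm hχu hmem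
  obtain ⟨P, hP0, -, hP⟩ := exists_biv_of_isAlgebraic (jqModC ℚ) halg
  exact ⟨P, hP0, hP⟩

/-! ### The main statement -/

/-- There is a nonzero integral relation between `j` and `j(q^d)`. -/
theorem exists_int_relation_jd (d : ℕ) [NeZero d] :
    ∃ Q : ℤ[X][X], Q ≠ 0 ∧ pev2 (jqModC ℤ) (qExpand ℤ d (jqModC ℤ)) Q = 0 := by
  obtain ⟨P, hP0, hP⟩ := exists_rat_relation d
  obtain ⟨Q, hQ0, -, hQ⟩ := exists_int_relation (jqModC ℤ) (qExpand ℤ d (jqModC ℤ)) P hP0 (by
    rw [coeffMap_qExpand, coeffMap_jqModC, pev2_eq_eval₂_evJ]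
    exact hP)
  exact ⟨Q, hQ0, hQ⟩

/-- Over every field `k`, there is a nonzero relation `P(j, j(q^d)) = 0`, `P ∈ k[Y][X]`. -/
theorem exists_relation_jd (k : Type*) [Field k] (d : ℕ) [NeZero d] :
    ∃ P : k[X][X], P ≠ 0 ∧ P.eval₂ (evJ (jqModC k)) (qExpand k d (jqModC k)) = 0 := by
  obtain ⟨Q, hQ0, hQ⟩ := exists_int_relation_jd d
  obtain ⟨P, hP0, -, hP⟩ := exists_field_relation k _ _ Q hQ0 hQ
  refine ⟨P, hP0, ?_⟩
  rw [coeffMap_qExpand, coeffMap_jqModC, pev2_eq_eval₂_evJ] at hP
  exact hP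

/-- **`j(q^d)` is algebraic over `k(j)`**, for every field `k` and every `d ≥ 1`. -/
theorem isAlgebraic_jd (k : Type*) [Field k] (d : ℕ) [NeZero d] :
    IsAlgebraic ↥(IntermediateField.adjoin k ({jqModC k} : Set (LaurentSeries k)))
      (qExpand k d (jqModC k)) := by
  obtain ⟨P, hP0, hP⟩ := exists_relation_jd k d
  exact isAlgebraic_of_biv (jqModC k) (ordV_jqModC k) P hP0 hP

end

end Fermat.Agent.IgusaDeg
end MergeWrap_Lib_IgusaDeg_AlgJd
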