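import Mathlib
import Fermat.Prelude.Def_ModularCurve_X0ModL
import Fermat.Agent.MUL.S28.Eval
import Fermat.Agent.MUL.S28.QExp
import Fermat.Agent.MUL.Orig.S20.Ramanujan
import Fermat.Agent.MUL.S28.FormalUnit
import Fermat.Agent.MUL.Lib.IgusaDeg.AlgJd
import Fermat.Agent.MUL.Orig.Lib.RR.SepLaurent
import Fermat.Agent.MUL.Lib.RR.Hurwitz.Norm

section MergeWrap_Lib_IgusaDeg_Theta -- from Lib/IgusaDeg/Theta.lean

set_option autoImplicit false

namespace Fermat.Agent.IgusaDeg

open Polynomial ModularCurve Fermat.Agent.S28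

noncomputable section

variable {R : Type*} [CommRing R]

/-- `θ = q d/dq`, coefficientwise. -/
def thetaFun (x : LaurentSeries R) : LaurentSeries R where
  coeff n := (n : R) * x.coeff n
  isPWO_support' := x.isPWO_support.mono fun n hn => by
    rw [HahnSeries.mem_support]
    intro h
    exact hn (by simp only [h, mul_zero])

@[simp] theorem thetaFun_coeff (x : LaurentSeries R) (n : ℤ) :
    (thetaFun x).coeff n = (n : R) * x.coeff n := rfl

theorem thetaFun_support_subset (x : LaurentSeries R) : (thetaFun x).support ⊆ x.support := by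
  intro n hn
  rw [HahnSeries.mem_support] at hn ⊢
  intro h
  exact hn (by rw [thetaFun_coeff, h, mul_zero])

theorem thetaFun_mul (x y : LaurentSeries R) :
    thetaFun (x * y) = x * thetaFun y + y * thetaFun x := by
  ext n
  rw [thetaFun_coeff, HahnSeries.coeff_add, HahnSeries.coeff_mul,
    HahnSeries.coeff_mul_right' y.isPWO_support (thetaFun_support_subset y), mul_comm y,
    HahnSeries.coeff_mul_left' x.isPWO_support (thetaFun_support_subset x),
    Finset.mul_sum, ← Finset.sum_add_distrib]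
  refine Finset.sum_congr rfl fun ij hij => ?_
  have h : ij.1 + ij.2 = n := (Finset.mem_antidiagonal.mp hij).2.2
  simp only [thetaFun_coeff]
  rw [← h]
  push_cast
  ring

variable (R) in
/-- `θ = q d/dq` as an additive map of `R((q))` (it satisfies the Leibniz rule `theta_mul`). -/
def theta : LaurentSeries R →+ LaurentSeries R where
  toFun := thetaFun
  map_zero' := by
    ext n
    simp only [thetaFun_coeff, HahnSeries.coeff_zero, mul_zero]
  map_add' x y := by
    ext n
    simp only [thetaFun_coeff, HahnSeries.coeff_add, mul_add]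

@[simp] theorem theta_coeff (x : LaurentSeries R) (n : ℤ) :
    (theta R x).coeff n = (n : R) * x.coeff n := rfl

theorem theta_mul (x y : LaurentSeries R) :
    theta R (x * y) = x * theta R y + y * theta R x :=
  thetaFun_mul x y

theorem theta_one : theta R (1 : LaurentSeries R) = 0 := by
  ext n
  rw [theta_coeff, HahnSeries.coeff_one]
  split_ifs with h
  · subst h; simp
  · simp

theorem theta_pow (x : LaurentSeries R) (n : ℕ) :
    theta R (x ^ n) = (n : LaurentSeries R) * x ^ (n - 1) * theta R x := by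
  induction n with
  | zero => simp [theta_one]
  | succ n ih =>
    rw [pow_succ, theta_mul, ih]
    rcases Nat.eq_zero_or_pos n with rfl | hn
    · simp
    · have : x ^ n = x ^ (n - 1) * x := by
        rw [← pow_succ, Nat.sub_add_cancel hn]
      rw [Nat.add_sub_cancel]
      push_cast
      rw [this]
      ring

theorem theta_hahnC (c : R) : theta R (HahnSeries.C c) = 0 := by
  ext n
  rw [theta_coeff, HahnSeries.C_apply, HahnSeries.coeff_zero]
  rcases eq_or_ne n 0 with rfl | h
  · simp
  · rw [HahnSeries.coeff_single_of_ne h, mul_zero]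

/-- Change of coefficients commutes with `θ`. -/
theorem coeffMap_theta {S : Type*} [CommRing S] (f : R →+* S) (x : LaurentSeries R) :
    coeffMap f (theta R x) = theta S (coeffMap f x) := by
  ext n
  rw [coeffMap_coeff, theta_coeff, theta_coeff, coeffMap_coeff, map_mul, map_intCast]

/-- `θ (x(q^d)) = d · (θ x)(q^d)`. -/
theorem theta_qExpand (d : ℕ) [NeZero d] (x : LaurentSeries R) :
    theta R (qExpand R d x) = (d : LaurentSeries R) * qExpand R d (theta R x) := by
  have hd : ((d : ℕ) : LaurentSeries R) = HahnSeries.C (d : R) := by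
    rw [map_natCast]
  rw [hd]
  ext n
  rw [theta_coeff, HahnSeries.C_apply, HahnSeries.coeff_single_zero_mul]
  by_cases hn : (d : ℤ) ∣ n
  · obtain ⟨m, rfl⟩ := hn
    rw [qExpand_coeff_mul, qExpand_coeff_mul, theta_coeff]
    push_cast
    ring
  · rw [qExpand_coeff_of_not_dvd _ _ hn, qExpand_coeff_of_not_dvd _ _ hn, mul_zero, mul_zero]

/-! ### The chain rule -/

theorem theta_pev1 (j : LaurentSeries R) (p : R[X]) :
    theta R (pev1 j p) = pev1 j (derivative p) * theta R j := by
  induction p using Polynomial.induction_on' with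
  | add p q hp hq =>
    rw [map_add, map_add, hp, hq, derivative_add, map_add]
    ring
  | monomial n c =>
    rw [derivative_monomial, pev1_apply, pev1_apply, eval₂_monomial, eval₂_monomial, theta_mul,
      theta_hahnC, theta_pow, map_mul, map_natCast]
    ring

/-- The partial derivative with respect to the inner variable. -/
def dY (P : R[X][X]) : R[X][X] := P.sum fun i c => monomial i (derivative c)

theorem dY_add (P Q : R[X][X]) : dY (P + Q) = dY P + dY Q := by
  unfold dY
  rw [sum_add_index]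
  · intro i; simp
  · intro i a b; simp

theorem dY_monomial (n : ℕ) (c : R[X]) : dY (monomial n c) = monomial n (derivative c) := by
  unfold dY
  rw [sum_monomial_index]
  simp

theorem dY_zero : dY (0 : R[X][X]) = 0 := by
  unfold dY
  rw [sum_zero_index]

theorem coeff_dY (P : R[X][X]) (i : ℕ) : (dY P).coeff i = derivative (P.coeff i) := by
  induction P using Polynomial.induction_on' with
  | add p q hp hq => rw [dY_add, coeff_add, coeff_add, hp, hq, derivative_add]
  | monomial n c =>
    rw [dY_monomial, coeff_monomial, coeff_monomial]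
    split_ifs <;> simp

theorem natDegree_dY_le (P : R[X][X]) : (dY P).natDegree ≤ P.natDegree := by
  rw [natDegree_le_iff_coeff_eq_zero]
  intro i hi
  rw [coeff_dY, coeff_eq_zero_of_natDegree_lt hi, derivative_zero]

/-- The chain rule: `θ (P(j, x)) = (∂_Y P)(j, x) θ j + (∂_X P)(j, x) θ x`. -/
theorem theta_pev2 (j x : LaurentSeries R) (P : R[X][X]) :
    theta R (pev2 j x P) =
      pev2 j x (dY P) * theta R j + pev2 j x (derivative P) * theta R x := by
  induction P using Polynomial.induction_on' with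
  | add p q hp hq =>
    rw [map_add, map_add, hp, hq, dY_add, derivative_add, map_add, map_add]
    ring
  | monomial n c =>
    rw [dY_monomial, derivative_monomial, pev2_apply, pev2_apply, pev2_apply, eval₂_monomial,
      eval₂_monomial, eval₂_monomial, theta_mul, theta_pev1, theta_pow, map_mul, map_natCast]
    ring

/-- `θ j ≠ 0` for the `j`-invariant, over every nontrivial ring. -/
theorem theta_jqModC_ne_zero [Nontrivial R] : theta R (jqModC R) ≠ 0 := by
  intro h
  have h1 := congrArg (fun z : LaurentSeries R => z.coeff (-1)) h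
  simp only [theta_coeff, HahnSeries.coeff_zero, coeff_jqModC_neg_one] at h1
  simp at h1

end

end Fermat.Agent.IgusaDeg
end MergeWrap_Lib_IgusaDeg_Theta

section MergeWrap_Lib_IgusaDeg_ThetaQ -- from Lib/IgusaDeg/ThetaQ.lean

set_option autoImplicit false

namespace Fermat.Agent.IgusaDeg

open UpperHalfPlane ModularForm Filter Complex Function
open scoped Real Topology MatrixGroups ModularForm Manifold Derivative
open Fermat.Agent.S28 Fermat.Agent.S28.QExp ModularCurve
open Fermat.Agent.S23 (QA)

noncomputable section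

local notation "𝕢" => Function.Periodic.qParam

/-! ### `θ` on power series -/

/-- `θ = q d/dq` on power series. -/
def psTheta {R : Type*} [CommRing R] (P : PowerSeries R) : PowerSeries R :=
  PowerSeries.mk fun n => (n : R) * P.coeff n

theorem coeff_psTheta {R : Type*} [CommRing R] (P : PowerSeries R) (n : ℕ) :
    (psTheta P).coeff n = (n : R) * P.coeff n := by
  simp [psTheta]

theorem theta_ofPowerSeries {R : Type*} [CommRing R] (P : PowerSeries R) :
    theta R (HahnSeries.ofPowerSeries ℤ R P) = HahnSeries.ofPowerSeries ℤ R (psTheta P) := by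
  ext n
  rw [theta_coeff]
  rcases le_or_gt 0 n with hn | hn
  · lift n to ℕ using hn
    rw [HahnSeries.ofPowerSeries_apply_coeff, HahnSeries.ofPowerSeries_apply_coeff, coeff_psTheta]
    simp
  · rw [ofPowerSeries_coeff_of_neg _ hn, ofPowerSeries_coeff_of_neg _ hn, mul_zero]

theorem theta_single_one {R : Type*} [CommRing R] (m : ℤ) :
    theta R (HahnSeries.single m (1 : R)) = HahnSeries.C (m : R) * HahnSeries.single m 1 := by
  ext n
  rw [theta_coeff, HahnSeries.C_apply, HahnSeries.coeff_single_zero_mul]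
  rcases eq_or_ne n m with rfl | h
  · rfl
  · rw [HahnSeries.coeff_single_of_ne h, mul_zero, mul_zero]

/-- Taylor series of `q ↦ q c'(q)`. -/
theorem taylor0_mul_deriv {c : ℂ → ℂ} (hc : AnalyticAt ℂ c 0) :
    taylor0 (fun q => q * deriv c q) = psTheta (taylor0 c) := by
  have h1 : (fun q : ℂ => q * deriv c q) = (fun q : ℂ => q) * deriv c := rfl
  rw [h1, taylor0_mul (c := fun q : ℂ => q) (c' := deriv c) analyticAt_id hc.deriv, taylor0_id]
  ext n
  rw [coeff_psTheta]
  cases n with
  | zero => simp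
  | succ m =>
    rw [PowerSeries.coeff_succ_X_mul, coeff_taylor0, coeff_taylor0, iteratedDeriv_succ',
      Nat.factorial_succ]
    have h2 : ((m + 1 : ℕ) : ℂ) ≠ 0 := by exact_mod_cast Nat.succ_ne_zero m
    have h3 : ((m.factorial : ℕ) : ℂ) ≠ 0 := by exact_mod_cast Nat.factorial_ne_zero m
    push_cast
    field_simp

/-! ### The normalized derivative of a periodic holomorphic function -/

theorem normDeriv_eq {F : ℍ → ℂ} (hper : IsPer F) (hhol : MDiff F) (z : ℍ) :
    D F z = qFun z * deriv (cuspFunction 1 F) (qFun z) := by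
  have h1 : (F ∘ ofComplex) =ᶠ[𝓝 (z : ℂ)] (cuspFunction 1 F) ∘ (𝕢 1) := by
    filter_upwards [isOpen_upperHalfPlaneSet.mem_nhds z.im_pos] with w hw
    have := eq_cuspFunction (f := F) ⟨w, hw⟩ one_ne_zero hper
    simp only [Function.comp_apply, ofComplex_apply_of_im_pos hw]
    exact this.symm
  have hc : DifferentiableAt ℂ (cuspFunction 1 F) (𝕢 1 (z : ℂ)) :=
    Function.Periodic.differentiableAt_cuspFunction one_ne_zero hper
      (UpperHalfPlane.mdifferentiableAt_iff.mp (hhol z))
  have h2 : HasDerivAt ((cuspFunction 1 F) ∘ (𝕢 1))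
      (deriv (cuspFunction 1 F) (𝕢 1 (z : ℂ)) * (2 * Real.pi * Complex.I * 𝕢 1 (z : ℂ))) (z : ℂ) :=
    hc.hasDerivAt.comp (z : ℂ) (Fermat.Agent.S20.ramanujanAux_hasDerivAt_qParam (z : ℂ))
  rw [Derivative.normalizedDerivOfComplex, h1.deriv_eq, h2.deriv]
  have hpi : (2 * (Real.pi : ℂ) * Complex.I) ≠ 0 := by
    simp [Real.pi_ne_zero]
  show _ = 𝕢 1 (z : ℂ) * deriv (cuspFunction 1 F) (𝕢 1 (z : ℂ))
  field_simp

theorem isPer_normDeriv {F : ℍ → ℂ} (hper : IsPer F) : IsPer (D F) := by
  rw [isPer_iff]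
  intro τ
  have h1 : ((((1 : ℝ) +ᵥ τ : ℍ)) : ℂ) = (τ : ℂ) + 1 := by
    rw [coe_vadd]; push_cast; ring
  have h2 : (fun w : ℂ => (F ∘ ofComplex) (w + 1)) = F ∘ ofComplex := funext fun w => hper w
  show (2 * Real.pi * Complex.I)⁻¹ * deriv (F ∘ ofComplex) (((1 : ℝ) +ᵥ τ : ℍ) : ℂ) =
    (2 * Real.pi * Complex.I)⁻¹ * deriv (F ∘ ofComplex) (τ : ℂ)
  rw [h1, ← deriv_comp_add_const, h2]

theorem mdiff_qFun : MDiff qFun := by
  rw [UpperHalfPlane.mdifferentiable_iff]
  refine (Function.Periodic.differentiable_qParam (h := 1)).differentiableOn.congr ?_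
  intro w hw
  simp only [Function.comp_apply, qFun]
  rw [ofComplex_apply_of_im_pos hw]

theorem normDeriv_qFun : D qFun = qFun := by
  funext z
  have h1 : (qFun ∘ ofComplex) =ᶠ[𝓝 (z : ℂ)] (𝕢 1) := by
    filter_upwards [isOpen_upperHalfPlaneSet.mem_nhds z.im_pos] with w hw
    simp only [Function.comp_apply, qFun, ofComplex_apply_of_im_pos hw]
  rw [Derivative.normalizedDerivOfComplex, h1.deriv_eq,
    (Fermat.Agent.S20.ramanujanAux_hasDerivAt_qParam (z : ℂ)).deriv]
  have hpi : (2 * (Real.pi : ℂ) * Complex.I) ≠ 0 := by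
    simp [Real.pi_ne_zero]
  show _ = 𝕢 1 (z : ℂ)
  field_simp

/-- The holomorphic case. -/
theorem qa_normDeriv {g : ℍ → ℂ} (hper : IsPer g) (hhol : MDiff g) (hqa : QA g) :
    QA (D g) ∧ qExpansion 1 (D g) = psTheta (qExpansion 1 g) := by
  have hc : AnalyticAt ℂ (fun q : ℂ => q * deriv (cuspFunction 1 g) q) 0 :=
    analyticAt_id.mul hqa.deriv
  have h := qa_of_eq (f := D g) one_pos hc fun τ _ => normDeriv_eq hper hhol τ
  refine ⟨h.1, ?_⟩
  rw [h.2, taylor0_mul_deriv hqa, qExpansion_eq_taylor0]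

/-- **The `q`-expansion of the normalized derivative**. -/
theorem hasQ_normDeriv {f : ℍ → ℂ} {s : LaurentSeries ℂ} (hf : HasQ f s) (hhol : MDiff f) :
    HasQ (D f) (theta ℂ s) := by
  obtain ⟨hper, m, hqa, hexp⟩ := hf
  have hqm : MDiff (qFun ^ m) := mdiff_qFun.pow m
  have hg : MDiff (f * qFun ^ m) := hhol.mul hqm
  have hgper : IsPer (f * qFun ^ m) := hper.mul (isPer_qFun.pow m)
  obtain ⟨h1, h2⟩ := qa_normDeriv hgper hg hqa
  -- `D f · q^m = D g - m g`
  have hD : D f * qFun ^ m = D (f * qFun ^ m) - (m : ℂ) • (f * qFun ^ m) := by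
    rw [Derivative.normalizedDerivOfComplex_mul f (qFun ^ m) hhol hqm,
      Derivative.normalizedDerivOfComplex_pow qFun m mdiff_qFun, normDeriv_qFun]
    funext z
    simp only [Pi.add_apply, Pi.mul_apply, Pi.sub_apply, Pi.smul_apply, Pi.pow_apply,
      Pi.natCast_apply, smul_eq_mul]
    rcases Nat.eq_zero_or_pos m with rfl | hm
    · simp
    · have : qFun z ^ m = qFun z ^ (m - 1) * qFun z := by
        rw [← pow_succ, Nat.sub_add_cancel hm]
      rw [this]
      ring
  refine ⟨isPer_normDeriv hper, m, ?_, ?_⟩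
  · rw [hD]
    exact h1.sub (hqa.smul _)
  · rw [hD, sub_eq_add_neg, h1.qExpansion_add (hqa.smul _).neg, (hqa.smul _).qExpansion_neg,
      hqa.qExpansion_smul, h2, map_add, map_neg, ← theta_ofPowerSeries, hexp, theta_mul,
      theta_single_one]
    have h3 : HahnSeries.ofPowerSeries ℤ ℂ ((m : ℂ) • qExpansion 1 (f * qFun ^ m)) =
        HahnSeries.C (m : ℂ) * (HahnSeries.single (m : ℤ) 1 * s) := by
      rw [PowerSeries.smul_eq_C_mul, map_mul, HahnSeries.ofPowerSeries_C, hexp]
    rw [h3]
    push_cast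
    ring

end

end Fermat.Agent.IgusaDeg
end MergeWrap_Lib_IgusaDeg_ThetaQ

section MergeWrap_Lib_IgusaDeg_ThetaId -- from Lib/IgusaDeg/ThetaId.lean

set_option autoImplicit false

namespace Fermat.Agent.IgusaDeg

open UpperHalfPlane ModularForm Filter Complex Function EisensteinSeries
open scoped Real Topology MatrixGroups ModularForm Manifold Derivative
open Fermat.Agent.S28 Fermat.Agent.S28.QExp ModularCurve

noncomputable section

/-! ### The analytic identity -/

theorem mdiff_discriminant : MDiff ModularForm.discriminant :=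
  CuspFormClass.holo CuspForm.discriminant

theorem mdiff_E4 : MDiff (⇑E₄ : ℍ → ℂ) := ModularFormClass.holo E₄

theorem mdiff_jFun : MDiff jFun := by
  have h1 := mdiff_discriminant
  have h2 := mdiff_E4
  rw [UpperHalfPlane.mdifferentiable_iff] at h1 h2 ⊢
  have h3 : DifferentiableOn ℂ
      (fun w => ((⇑E₄ : ℍ → ℂ) ∘ ofComplex) w ^ 3 / (ModularForm.discriminant ∘ ofComplex) w)
      upperHalfPlaneSet :=
    (h2.pow 3).div h1 fun w _ => discriminant_ne_zero _
  exact h3.congr fun w _ => rfl

theorem jFun_mul_discriminant :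
    jFun * ModularForm.discriminant = (⇑E₄ : ℍ → ℂ) ^ 3 := by
  funext τ
  simp only [Pi.mul_apply, Pi.pow_apply, jFun]
  exact div_mul_cancel₀ _ (discriminant_ne_zero τ)

theorem normDeriv_jFun_mul (τ : ℍ) :
    D jFun τ * ModularForm.discriminant τ = -(E₄ τ ^ 2 * E₆ τ) := by
  have h1 := congrArg (fun F : ℍ → ℂ => D F τ) jFun_mul_discriminant
  beta_reduce at h1
  rw [Derivative.normalizedDerivOfComplex_mul _ _ mdiff_jFun mdiff_discriminant,
    Derivative.normalizedDerivOfComplex_pow _ 3 mdiff_E4,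
    Fermat.Agent.S20.ramanujan_discriminant, Fermat.Agent.S20.ramanujan_E₄] at h1
  simp only [Pi.add_apply, Pi.mul_apply, Pi.pow_apply, Pi.smul_apply, Pi.sub_apply,
    smul_eq_mul, Pi.natCast_apply] at h1
  have h2 : jFun τ * ModularForm.discriminant τ = E₄ τ ^ 3 := by
    have := congrFun jFun_mul_discriminant τ
    simpa using this
  have h3 : D jFun τ * ModularForm.discriminant τ =
      ((3 : ℕ) : ℂ) * E₄ τ ^ (3 - 1) * ((3 : ℂ)⁻¹ * (E2 τ * E₄ τ - E₆ τ)) -
        jFun τ * (E2 τ * ModularForm.discriminant τ) := by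
    rw [← h1]; ring
  rw [h3]
  have h4 : jFun τ * (E2 τ * ModularForm.discriminant τ) = E2 τ * E₄ τ ^ 3 := by
    rw [← h2]; ring
  rw [h4]
  push_cast
  ring

theorem normDeriv_jFun_pow_six (τ : ℍ) :
    D jFun τ ^ 6 = ModularForm.discriminant τ * jFun τ ^ 4 * (jFun τ - 1728) ^ 3 := by
  have hd := discriminant_ne_zero τ
  have h1 := normDeriv_jFun_mul τ
  have h2 := discriminant_eq_E₄_cube_sub_E₆_sq τ
  have hx : D jFun τ = -(E₄ τ ^ 2 * E₆ τ) / ModularForm.discriminant τ := by
    rw [eq_div_iff hd, h1]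
  have hj : jFun τ - 1728 = E₆ τ ^ 2 / ModularForm.discriminant τ := by
    rw [eq_div_iff hd, sub_mul]
    have : jFun τ * ModularForm.discriminant τ = E₄ τ ^ 3 := by
      have := congrFun jFun_mul_discriminant τ
      simpa using this
    rw [this]
    have h3 : (1728 : ℂ) * ModularForm.discriminant τ = E₄ τ ^ 3 - E₆ τ ^ 2 := by
      rw [h2]; field_simp
    rw [h3]; ring
  rw [hx, hj]
  have hj' : jFun τ = E₄ τ ^ 3 / ModularForm.discriminant τ := rfl
  rw [hj']
  field_simp

/-! ### The formal identity over `ℂ` -/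

theorem hasQ_normDeriv_jFun : HasQ (D jFun) (theta ℂ (jqModC ℂ)) :=
  hasQ_normDeriv hasQ_jFun mdiff_jFun

theorem theta_identity_C :
    theta ℂ (jqModC ℂ) ^ 6 =
      deltaC * jqModC ℂ ^ 4 * (jqModC ℂ - HahnSeries.C (1728 : ℂ)) ^ 3 := by
  have hL := hasQ_normDeriv_jFun.pow 6
  have hR := (hasQ_discriminant.mul (hasQ_jFun.pow 4)).mul
    ((hasQ_jFun.sub (hasQ_const 1728)).pow 3)
  refine hL.eq_of_eq hR fun τ => ?_
  simp only [Pi.mul_apply, Pi.pow_apply, Pi.sub_apply]
  exact normDeriv_jFun_pow_six τ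

/-! ### The formal identity over `ℤ` and over every ring -/

theorem deltaC_eq : deltaC = wp10_DeltaF ℂ := rfl

theorem theta_identity_Z :
    theta ℤ (jqModC ℤ) ^ 6 =
      wp10_DeltaF ℤ * jqModC ℤ ^ 4 * (jqModC ℤ - HahnSeries.C (1728 : ℤ)) ^ 3 := by
  apply coeffMap_injective (RingHom.injective_int (Int.castRingHom ℂ))
  rw [map_pow, coeffMap_theta, coeffMap_jqModC, map_mul, map_mul, map_pow, map_pow, map_sub,
    coeffMap_jqModC, wp10_coeffMap_DeltaF, coeffMap_hahnC, theta_identity_C, deltaC_eq]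
  simp

/-- **`(θ j)^6 = Δ j^4 (j - 1728)^3`** over every commutative ring. -/
theorem theta_identity (R : Type*) [CommRing R] :
    theta R (jqModC R) ^ 6 =
      wp10_DeltaF R * jqModC R ^ 4 * (jqModC R - HahnSeries.C (1728 : R)) ^ 3 := by
  have h := congrArg (coeffMap (Int.castRingHom R)) theta_identity_Z
  rw [map_pow, coeffMap_theta, coeffMap_jqModC, map_mul, map_mul, map_pow, map_pow, map_sub,
    coeffMap_jqModC, wp10_coeffMap_DeltaF, coeffMap_hahnC] at h
  simpa using h

end

end Fermat.Agent.IgusaDeg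
end MergeWrap_Lib_IgusaDeg_ThetaId

section MergeWrap_Lib_IgusaDeg_UMem -- from Lib/IgusaDeg/UMem.lean

set_option autoImplicit false

namespace Fermat.Agent.IgusaDeg

open Polynomial ModularCurve Fermat.Agent.S28 IntermediateField

noncomputable section

variable (k : Type*) [Field k]

/-! ### Preliminaries -/

theorem order_jq : (jqModC k).order = -1 := by
  have h1 : (jqModC k).coeff (-1 : ℤ) ≠ 0 := by
    rw [coeff_jqModC_neg_one]
    exact one_ne_zero
  have hle : (jqModC k).order ≤ -1 := HahnSeries.order_le_of_coeff_ne_zero h1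
  refine le_antisymm hle ?_
  by_contra hlt
  push Not at hlt
  have hne : jqModC k ≠ 0 := jqModC_ne_zero_of_nontrivial k
  exact hne (HahnSeries.coeff_order_eq_zero.mp (coeff_jqModC_of_lt k hlt))

theorem pow_ne_jq {ℓ : ℕ} (hℓ : 2 ≤ ℓ) (y : LaurentSeries k) : y ^ ℓ ≠ jqModC k := by
  intro h
  have h1 := congrArg HahnSeries.order h
  rw [HahnSeries.order_pow, order_jq, nsmul_eq_mul] at h1
  have h2 : (ℓ : ℤ) ∣ -1 := ⟨_, h1.symm⟩
  have h3 : (ℓ : ℤ) ∣ 1 := (dvd_neg.mp h2)
  have h4 := Int.le_of_dvd one_pos h3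
  omega

instance infinite_laurent : Infinite (LaurentSeries k) :=
  Infinite.of_injective (fun n : ℕ => (HahnSeries.single (n : ℤ) (1 : k) : LaurentSeries k))
    fun a b h => by
      have h1 := congrArg (fun z : LaurentSeries k => z.coeff (a : ℤ)) h
      simp only [HahnSeries.coeff_single_same] at h1
      by_contra hab
      rw [HahnSeries.coeff_single_of_ne (by exact_mod_cast hab)] at h1
      exact one_ne_zero h1

theorem natCast_laurent_ne_zero {n : ℕ} (hn : (n : k) ≠ 0) : ((n : ℕ) : LaurentSeries k) ≠ 0 := by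
  have h : ((n : ℕ) : LaurentSeries k) = HahnSeries.C (n : k) := by rw [map_natCast]
  rw [h]
  intro h0
  rw [HahnSeries.C_apply] at h0
  have := congrArg (fun z : LaurentSeries k => z.coeff 0) h0
  simp only [HahnSeries.coeff_single_same, HahnSeries.coeff_zero] at this
  exact hn this

theorem qExpand_jq_sub_C_ne_zero (d : ℕ) [NeZero d] (c : k) :
    qExpand k d (jqModC k) - HahnSeries.C c ≠ 0 := by
  intro h
  have h1 : qExpand k d (jqModC k) = qExpand k d (HahnSeries.C c) := by
    rw [qExpand_C]; exact sub_eq_zero.mp h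
  have h2 := qExpand_injective (R := k) d h1
  have h3 := congrArg (fun z : LaurentSeries k => z.coeff (-1)) h2
  simp only [coeff_jqModC_neg_one, HahnSeries.C_apply] at h3
  rw [HahnSeries.coeff_single_of_ne (by decide)] at h3
  exact one_ne_zero h3

theorem qExpand_jq_ne_zero (d : ℕ) [NeZero d] : qExpand k d (jqModC k) ≠ 0 := by
  have := qExpand_jq_sub_C_ne_zero k d 0
  rwa [map_zero, sub_zero] at this

theorem jq_sub_C_ne_zero (c : k) : jqModC k - HahnSeries.C c ≠ 0 := by
  have := qExpand_jq_sub_C_ne_zero k 1 c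
  rwa [qExpand_one_apply] at this

/-! ### Membership of polynomial expressions -/

variable {k} in
theorem evJ_mem_of_mem (F : IntermediateField k (LaurentSeries k)) {j : LaurentSeries k}
    (hj : j ∈ F) (c : k[X]) : evJ j c ∈ F := by
  induction c using Polynomial.induction_on' with
  | add p q hp hq => rw [map_add]; exact add_mem hp hq
  | monomial n a =>
    show aeval j (monomial n a) ∈ F
    rw [aeval_monomial]
    exact mul_mem (F.algebraMap_mem a) (pow_mem hj n)

variable {k} in
theorem pev2_mem_of_mem (F : IntermediateField k (LaurentSeries k)) {j x : LaurentSeries k}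
    (hj : j ∈ F) (hx : x ∈ F) (Q : k[X][X]) : pev2 j x Q ∈ F := by
  induction Q using Polynomial.induction_on' with
  | add p q hp hq => rw [map_add]; exact add_mem hp hq
  | monomial n a =>
    rw [pev2_apply, eval₂_monomial, pev1_eq_evJ]
    exact mul_mem (evJ_mem_of_mem F hj a) (pow_mem hx n)

variable {k} in
theorem hahnC_mem (F : IntermediateField k (LaurentSeries k)) (c : k) :
    (HahnSeries.C c : LaurentSeries k) ∈ F := by
  rw [hahnC_eq_algebraMap]
  exact F.algebraMap_mem c

/-! ### A separable relation between `j` and `j(q^d)` -/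

theorem isSeparable_jd [PerfectField k] (d : ℕ) [NeZero d] :
    IsSeparable ↥(IntermediateField.adjoin k ({jqModC k} : Set (LaurentSeries k)))
      (qExpand k d (jqModC k)) := by
  have halg := isAlgebraic_jd k d
  obtain ⟨p, hp⟩ := CharP.exists k
  rcases CharP.char_is_prime_or_zero k p with hp' | hp0
  · have : Fact p.Prime := ⟨hp'⟩
    exact Fermat.Agent.RRSep.isSeparable_of_isAlgebraic_adjoin p
      (fun y => pow_ne_jq k hp'.two_le y) halg
  · subst hp0
    have : CharZero k := CharP.charP_to_charZero k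
    have : CharZero ↥(IntermediateField.adjoin k ({jqModC k} : Set (LaurentSeries k))) :=
      charZero_of_injective_algebraMap
        (algebraMap k ↥(IntermediateField.adjoin k ({jqModC k} : Set (LaurentSeries k)))).injective
    exact (minpoly.irreducible halg.isIntegral).separable

/-- There is a relation `P(j, j_d) = 0` with `∂_X P (j, j_d) ≠ 0`. -/
theorem exists_sep_relation [PerfectField k] (d : ℕ) [NeZero d] :
    ∃ P : k[X][X], pev2 (jqModC k) (qExpand k d (jqModC k)) P = 0 ∧
      pev2 (jqModC k) (qExpand k d (jqModC k)) (derivative P) ≠ 0 := by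
  set j := jqModC k with hj
  set x := qExpand k d (jqModC k) with hx
  have hsep := isSeparable_jd k d
  obtain ⟨b, P, hb, -, -, hev⟩ := exists_biv_of_poly j
    (minpoly ↥(IntermediateField.adjoin k ({j} : Set (LaurentSeries k))) x)
  have hpoly : P.map (evJ j) = C (evJ j b) *
      (minpoly ↥(IntermediateField.adjoin k ({j} : Set (LaurentSeries k))) x).map
        (algebraMap ↥(IntermediateField.adjoin k ({j} : Set (LaurentSeries k)))
          (LaurentSeries k)) := by
    refine Polynomial.funext fun y => ?_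
    rw [eval_map, hev y, eval_mul, eval_C, eval_map, aeval_def]
  refine ⟨P, ?_, ?_⟩
  · rw [pev2_eq_eval₂_evJ, hev, minpoly.aeval, mul_zero]
  · rw [pev2_eq_eval₂_evJ, ← eval_map, ← derivative_map, hpoly, derivative_C_mul, eval_mul,
      eval_C, derivative_map, eval_map, ← aeval_def]
    refine mul_ne_zero ?_ ?_
    · intro h0
      exact hb (evJ_injective j (ordV_jqModC k) (h0.trans (map_zero _).symm))
    · exact hsep.aeval_derivative_ne_zero (minpoly.aeval _ x)

/-! ### `Δ(q^δ)/Δ ∈ k(j, j_δ)` -/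

theorem delta_ratio_mem [PerfectField k] (N : ℕ) [NeZero N] (hN : (N : k) ≠ 0)
    (δ : ℕ) [NeZero δ] (hδ : δ ∣ N) :
    qExpand k δ (wp10_DeltaF k) / wp10_DeltaF k ∈ modularFunctionFieldFullC k N := by
  set F := modularFunctionFieldFullC k N with hF
  set j := jqModC k with hj
  set x := qExpand k δ (jqModC k) with hx
  set Δ := wp10_DeltaF k with hΔdef
  set T := theta k j with hT
  have hjF : j ∈ F := jqModC_mem_full k N
  have hxF : x ∈ F := jqModCd_mem_full k N hδ
  obtain ⟨P, hP, hP'⟩ := exists_sep_relation k δ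
  set A := pev2 j x (dY P) with hA
  set B := pev2 j x (derivative P) with hB
  have hAF : A ∈ F := pev2_mem_of_mem F hjF hxF _
  have hBF : B ∈ F := pev2_mem_of_mem F hjF hxF _
  -- the chain rule
  have h1 : A * T + B * theta k x = 0 := by
    rw [← theta_pev2, hP, map_zero]
  have h2 : theta k x = (δ : LaurentSeries k) * qExpand k δ T := theta_qExpand δ j
  -- the two identities
  have I1 : T ^ 6 = Δ * j ^ 4 * (j - HahnSeries.C (1728 : k)) ^ 3 := theta_identity k
  have I2 : qExpand k δ T ^ 6 = qExpand k δ Δ * x ^ 4 * (x - HahnSeries.C (1728 : k)) ^ 3 := by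
    have := congrArg (qExpand k δ) I1
    rwa [map_pow, map_mul, map_mul, map_pow, map_pow, map_sub, qExpand_C] at this
  -- nonvanishing
  have hδk : (δ : k) ≠ 0 := by
    obtain ⟨e, he⟩ := hδ
    intro h0
    apply hN
    rw [he, Nat.cast_mul, h0, zero_mul]
  have hδL : ((δ : ℕ) : LaurentSeries k) ≠ 0 := natCast_laurent_ne_zero k hδk
  have hx0 : x ≠ 0 := qExpand_jq_ne_zero k δ
  have hx1 : x - HahnSeries.C (1728 : k) ≠ 0 := qExpand_jq_sub_C_ne_zero k δ _
  have hΔ0 : Δ ≠ 0 := (wp10_isMonicUnit_DeltaF (R := k)).ne_zero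
  -- the key relation
  have h3 : B * ((δ : LaurentSeries k) * qExpand k δ T) = -(A * T) := by
    rw [← h2]; linear_combination h1
  have h4 : B ^ 6 * (δ : LaurentSeries k) ^ 6 * qExpand k δ T ^ 6 = A ^ 6 * T ^ 6 := by
    have := congrArg (fun z => z ^ 6) h3
    beta_reduce at this
    rw [mul_pow, mul_pow, (by decide : Even 6).neg_pow, mul_pow] at this
    linear_combination this
  rw [I1, I2] at h4
  have hden : B ^ 6 * (δ : LaurentSeries k) ^ 6 * (x ^ 4 * (x - HahnSeries.C (1728 : k)) ^ 3) ≠ 0 :=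
    mul_ne_zero (mul_ne_zero (pow_ne_zero _ hP') (pow_ne_zero _ hδL))
      (mul_ne_zero (pow_ne_zero _ hx0) (pow_ne_zero _ hx1))
  have heq : qExpand k δ Δ / Δ =
      (A ^ 6 * (j ^ 4 * (j - HahnSeries.C (1728 : k)) ^ 3)) /
        (B ^ 6 * (δ : LaurentSeries k) ^ 6 * (x ^ 4 * (x - HahnSeries.C (1728 : k)) ^ 3)) := by
    rw [div_eq_div_iff hΔ0 hden]
    linear_combination h4
  rw [heq]
  have hcF : (HahnSeries.C (1728 : k) : LaurentSeries k) ∈ F := hahnC_mem F _
  have hδF : ((δ : ℕ) : LaurentSeries k) ∈ F := IntermediateField.natCast_mem F δ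
  exact div_mem (mul_mem (pow_mem hAF 6) (mul_mem (pow_mem hjF 4) (pow_mem (sub_mem hjF hcF) 3)))
    (mul_mem (mul_mem (pow_mem hBF 6) (pow_mem hδF 6))
      (mul_mem (pow_mem hxF 4) (pow_mem (sub_mem hxF hcF) 3)))

/-! ### The unit -/

theorem prod_zpow_const {ι : Type*} (s : Finset ι) (m : ι → ℤ) {L : Type*} [Field L] (a : L)
    (ha : a ≠ 0) : ∏ i ∈ s, a ^ m i = a ^ ∑ i ∈ s, m i := by
  classical
  induction s using Finset.induction_on with
  | empty => simp
  | insert i s hi ih => rw [Finset.prod_insert hi, Finset.sum_insert hi, ih, zpow_add₀ ha]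

/-- **The canonical unit lies in `k(j(q^d) : d ∣ N)`.** -/
theorem formalUK_mem_full [PerfectField k] (N : ℕ) [NeZero N] (hN : (N : k) ≠ 0) :
    wp10_formalUK k N ∈ modularFunctionFieldFullC k N := by
  have hN0 : N ≠ 0 := NeZero.ne N
  have hΔ0 : wp10_DeltaF k ≠ 0 := (wp10_isMonicUnit_DeltaF (R := k)).ne_zero
  have heq : wp10_formalUK k N =
      ∏ δ ∈ unitSet N, (wp10_qExp k δ (wp10_DeltaF k) / wp10_DeltaF k) ^ unitM N δ := by
    unfold wp10_formalUK
    simp only [div_zpow]
    rw [Finset.prod_div_distrib, prod_zpow_const _ _ _ hΔ0, sum_unitM N hN0, zpow_neg,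
      div_eq_mul_inv]
  rw [heq]
  refine prod_mem fun δ hδ => zpow_mem ?_ _
  have : NeZero δ := ⟨wp3b_ne_zero_of_mem_unitSet hN0 hδ⟩
  rw [wp10_qExp_apply]
  exact delta_ratio_mem k N hN δ (wp3b_dvd_of_mem_unitSet hδ)

end

end Fermat.Agent.IgusaDeg
end MergeWrap_Lib_IgusaDeg_UMem
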